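import Fermat.Agent.LT.CTree.KillPS
import Fermat.Agent.LTG.CTree.KillNorm
import Fermat.Agent.LTG.G.Family

/-!
# LT, piece C: the killed families as formal sums of pure tensors

* `KillData.ps` : the killed family; `killed_ps`, `killed_ps_aPure_G`;
* `rad_ps`, `unitIR_A_G`, `A_f_sph` : the shape of its members;
* `appK_ps`, `appK_ps_aPure_G` : eigenvalues.
-/

set_option autoImplicit false

open NumberField IsDedekindDomain Matrix MeasureTheory
open Polynomial hiding X
open Fermat.LT Fermat.Agent.LT.CArch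
open Fermat.Agent.LT.B (IsNB Killed appK TX TY RX updI IsEig IsTestKer)

namespace Fermat.Agent.LT.CTree

attribute [local instance] KillData.fJf KillData.fJa

section general

variable {F : Type} [Field F] [NumberField F] {D : Datum F}

end general

section transfer

open Fermat.LT.GeoDat2 Fermat.Agent.LT.D

variable {K L : Type} [Field K] [NumberField K] [Field L] [NumberField L] [Algebra K L]
  {C : Cub K L} {G : GeoDat2 C} (k : KillData G.DL.toDatum) (h : KillOK_G k)

theorem ps_aPure_G {g : G.DL.I → ℝ → ℂ} (hg : ∀ i, IsTest (g i)) :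
    (k.ps g hg).map aPure = (k.normK_G h).ps (gK_G g) (isTest_gK_G hg) := by
  have e : (fun d : {d // d ∈ (killPoly k.J).support} ↦ aPure (k.A g hg d.1)) =
      fun d ↦ (k.normK_G h).A (gK_G g) (isTest_gK_G hg) d.1 := funext fun d ↦ aPure_A_G k h hg d.1
  change (⟨_, _, _, fun d : {d // d ∈ (killPoly k.J).support} ↦ aPure (k.A g hg d.1)⟩ : PS G.DK) = _
  rw [e]
  rfl

include h in
/-- **The matching family is killed.** -/
theorem killed_ps_aPure_G {g : G.DL.I → ℝ → ℂ} (hg : ∀ i, IsTest (g i)) :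
    Killed ((k.ps g hg).map aPure).ker := by
  rw [ps_aPure_G k h hg]
  exact killed_ps _ _

theorem rad_ps_aPure_G {g : G.DL.I → ℝ → ℂ} (hg : ∀ i, IsTest (g i)) :
    ((k.ps g hg).map aPure).Rad := fun d i ↦ rad_aPure (fun i ↦ k.A_rad g hg d.1 i) i

/-- the eigenvalue of the matching family -/
theorem appK_ps_aPure_G {g : G.DL.I → ℝ → ℂ} (hg : ∀ i, IsTest (g i)) {φ : X G.DK → ℂ}
    (hφ : Continuous φ) {Q : Set (Pl K)} {lam : Pl K → ℂ} {s : G.DK.I → ℂ} (he : IsEig Q lam s φ)
    (hQ : ∀ j, G.down (k.pl j) ∈ Q) :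
    appK volume ((k.ps g hg).map aPure).ker φ =
      ((k.normK_G h).kval lam s * ∏ i, hat (gK_G g i) (s i)) • φ := by
  rw [ps_aPure_G k h hg]
  exact appK_ps (k.normK_G h) _ hφ he hQ

include h in
theorem unitIR_A_G {g : G.DL.I → ℝ → ℂ} (hg : ∀ i, IsTest (g i)) (d : k.J →₀ ℕ) :
    UnitIR (k.A g hg d) where
  inert v hv := k.A_f_eq_unit g hg d fun j hj ↦ h.ne j (by rw [hj]; exact hv.fix)
  ram v hv := k.A_f_eq_unit g hg d fun j hj ↦ h.ne j (by rw [hj]; exact hv.fix)

include h in
theorem unitIR_ps_G {g : G.DL.I → ℝ → ℂ} (hg : ∀ i, IsTest (g i)) (d : (k.ps g hg).J) :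
    UnitIR ((k.ps g hg).k d) := unitIR_A_G k h hg d.1

end transfer

end Fermat.Agent.LT.CTree
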