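import Fermat.Agent.LT.CTree.KillExist
import Fermat.Agent.LTG.CTree.KillPS
import Fermat.Agent.LTG.Top.IfaceL

/-!
# LT, piece C: existence of killer data with non-zero value

* `cheb_eval` : `C_n(z + z⁻¹) = zⁿ + z⁻ⁿ`;
* `exists_killData_G` : from `KillL` (existence of the killer element), killer data on `L` which
  transfer to `K` and whose value at the eigensystem `lam` (with archimedean parameter `0`) is not
  zero.
-/

set_option autoImplicit false

open NumberField IsDedekindDomain Matrix MeasureTheory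
open Polynomial hiding X
open Fermat.LT Fermat.LT.GeoDat2 Fermat.Agent.LT.D Fermat.Agent.LT.CArch

namespace Fermat.Agent.LT.CTree

attribute [local instance] KillData.fJf KillData.fJa

variable {K L : Type} [Field K] [NumberField K] [Field L] [NumberField L] [Algebra K L]
  {C : Cub K L} {G : GeoDat2 C}

theorem down_fiber_finite_G {s : Set (Pl K)} (hs : s.Finite) : {w : Pl L | G.down w ∈ s}.Finite := by
  refine (hs.biUnion (t := fun v ↦ {G.up v, LT.pl C (G.up v), LT.pl C (LT.pl C (G.up v))})
    fun v _ ↦ Set.toFinite _).subset ?_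
  intro w hw
  rw [Set.mem_iUnion₂]
  exact ⟨G.down w, hw, by simpa using G.up_down w⟩

/-- **Existence of killer data.** -/
theorem exists_killData_G {lam : Pl L → ℝ} (hkill : Top.KillL C G.DL.toDatum lam)
    (n_split : ∀ v, Split C v (G.up v) → G.U.n v = G.DL.n (G.up v))
    (n_pl : ∀ w, G.DL.n (LT.pl C w) = G.DL.n w) :
    ∃ k : KillData G.DL.toDatum, KillOK_G k ∧ k.kval (fun w ↦ (lam w : ℂ)) 0 ≠ 0 := by
  classical
  -- the level at the other places above the same place
  have n_up : ∀ w, G.DL.n w = G.DL.n (G.up (G.down w)) := by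
    intro w
    rcases G.up_down w with h | h | h
    · rw [← h]
    · conv_lhs => rw [h]
      rw [n_pl]
    · conv_lhs => rw [h]
      rw [n_pl, n_pl]
  have n_down : ∀ w, LT.pl C w ≠ w → G.U.n (G.down w) = G.DL.n w := fun w hw ↦ by
    rw [n_split _ (split_down_G hw), ← n_up]
  set n : Pl L → ℕ := fun w ↦ if LT.pl C w = w ∨ G.DL.n w ≠ 0 then
    max (G.DL.n w) (3 * G.U.n (G.down w)) else 0 with hn
  have hfin : {w | n w ≠ 0}.Finite := by
    refine (G.DL.n_fin.union (down_fiber_finite_G (G := G) G.U.n_fin)).subset fun w hw ↦ ?_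
    by_contra hc
    simp only [Set.mem_union, Set.mem_ofPred_eq, not_or, not_not] at hc
    apply hw
    rw [hn]
    simp only [hc.1, hc.2]
    simp
  have hn2 : ∀ w, n w ≠ 0 → G.DL.n w ≠ 0 ∨ LT.pl C w = w := by
    intro w hw
    by_contra hc
    push Not at hc
    apply hw
    rw [hn]
    simp only
    rw [if_neg]
    push Not
    exact ⟨hc.2, hc.1⟩
  obtain ⟨ϖ, S, hS, hS1, hϖ, hodd⟩ := hkill n hfin hn2
  have hle : ∀ (w : Pl L) {a b : ℕ}, a ≤ b → (qv w)⁻¹ ^ b ≤ (qv w)⁻¹ ^ a := fun w a b hab ↦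
    pow_le_pow_of_le_one (inv_nonneg.mpr (qv_pos w).le) (inv_le_one_of_one_le₀ (one_lt_qv w).le)
      hab
  let k : KillData G.DL.toDatum :=
    { Jf := {w // w ∈ S}
      Ja := G.DL.I
      fJf := inferInstance
      fJa := inferInstance
      pl := fun j ↦ j.1
      e := fun j ↦ -lv j.1 (ϖ : L)
      good := fun j ↦ (hS j.1 j.2).1
      ar := fun i ↦ i
      sh := fun i ↦ Real.log ‖G.DL.emb i (ϖ : L)‖
      ϖ := ϖ
      ord := by
        intro w _
        rw [Finsupp.finsetSum_apply]
        have e1 : ∀ j : {w // w ∈ S}, (Finsupp.single j.1 (-lv j.1 (ϖ : L))) w =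
            if j.1 = w then -lv j.1 (ϖ : L) else 0 := fun j ↦ Finsupp.single_apply
        rw [Finset.sum_congr rfl fun j _ ↦ e1 j,
          Finset.sum_coe_sort S fun v ↦ if v = w then -lv v (ϖ : L) else 0, Finset.sum_ite_eq']
        by_cases hw : w ∈ S
        · rw [if_pos hw]
        · rw [if_neg hw, (lv_zero_iff ϖ.ne_zero).mpr (hS1 w hw), neg_zero]
      bad := by
        intro w hw
        have hnw : n w = max (G.DL.n w) (3 * G.U.n (G.down w)) := if_pos (Or.inr hw)
        refine (hϖ w ?_).trans (hle w ?_)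
        · rw [hnw]
          have := le_max_left (G.DL.n w) (3 * G.U.n (G.down w))
          omega
        · rw [hnw]
          exact le_max_left _ _
      arch := by
        intro i
        rw [Finset.sum_apply]
        rw [Finset.sum_eq_single i]
        · exact Pi.single_eq_same _ _
        · intro j _ hj
          exact Pi.single_eq_of_ne (Ne.symm hj) _
        · exact fun h ↦ absurd (Finset.mem_univ _) h }
  refine ⟨k, ⟨fun j ↦ (hS j.1 j.2).2.1, fun j ↦ ?_, fun w hw ↦ ?_⟩, ?_⟩
  · change G.U.n (G.down j.1) = 0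
    rw [n_down _ (hS j.1 j.2).2.1]
    exact (hS j.1 j.2).1
  · have hcond : LT.pl C w = w ∨ G.DL.n w ≠ 0 := by
      by_cases h : LT.pl C w = w
      · exact Or.inl h
      · right
        rwa [← n_down w h]
    have hnw : n w = max (G.DL.n w) (3 * G.U.n (G.down w)) := if_pos hcond
    refine (hϖ w ?_).trans (hle w ?_)
    · rw [hnw]
      have := le_max_right (G.DL.n w) (3 * G.U.n (G.down w))
      omega
    · rw [hnw]
      exact le_max_right _ _
  · choose z hz0 hz hz4 hzA hzB using fun j : {w // w ∈ S} ↦ exists_z (hS j.1 j.2).2.2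
    let y : k.J → ℂ := Sum.elim (fun j ↦ z j ^ (k.en j)) (fun _ ↦ 1)
    let y' : k.J → ℂ := Sum.elim (fun j ↦ (z j)⁻¹ ^ (k.en j)) (fun _ ↦ 1)
    have hval : k.val (fun w ↦ (lam w : ℂ)) 0 = fun j ↦ y j + y' j := by
      funext j
      rcases j with j | j
      · change (Chebyshev.C ℂ (k.en j)).eval ((lam j.1 : ℝ) : ℂ) = z j ^ (k.en j) + (z j)⁻¹ ^ (k.en j)
        rw [← hz j, cheb_eval (hz0 j)]
      · change 2 * Complex.cosh ((0 : ℂ) * _) = 1 + 1
        rw [zero_mul, Complex.cosh_zero]
        norm_num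
    unfold KillData.kval
    rw [hval]
    refine aeval_killPoly_ne_zero y y' ?_ ?_ ?_
    · intro j
      rcases j with j | j
      · change z j ^ (k.en j) * (z j)⁻¹ ^ (k.en j) = 1
        rw [← mul_pow, mul_inv_cancel₀ (hz0 j), one_pow]
      · exact one_mul 1
    · intro j
      rcases j with j | j
      · change (z j ^ (k.en j)) ^ 2 = ((z j)⁻¹ ^ (k.en j)) ^ 2
        have h1 : (z j)⁻¹ ^ 2 = z j ^ 2 := by
          rw [inv_pow, inv_eq_iff_eq_inv, ← mul_eq_one_iff_eq_inv₀ (pow_ne_zero 2 (hz0 j)), ← pow_add]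
          exact hz4 j
        rw [← pow_mul, ← pow_mul, mul_comm, pow_mul, pow_mul, h1]
      · rfl
    · have h1 : (∏ j, y j) ^ 2 = (-1) ^ (∑ w ∈ S.filter (fun w ↦ lam w = 0),
          (-lv w (ϖ : L)).natAbs) := by
        rw [Fintype.prod_sum_type]
        have e1 : ∏ j : k.Ja, y (Sum.inr j) = 1 := Finset.prod_eq_one fun _ _ ↦ rfl
        have e2 : ∀ j : k.Jf, (y (Sum.inl j)) ^ 2 =
            if lam j.1 = 0 then (-1 : ℂ) ^ (-lv j.1 (ϖ : L)).natAbs else 1 := by
          intro j
          change (z j ^ ((-lv j.1 (ϖ : L)).natAbs)) ^ 2 = _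
          rw [← pow_mul, mul_comm, pow_mul]
          by_cases h0 : lam j.1 = 0
          · rw [if_pos h0, hzA j h0]
          · rw [if_neg h0, hzB j h0, one_pow]
        rw [e1, mul_one, ← Finset.prod_pow, Finset.prod_congr rfl fun j _ ↦ e2 j]
        have e3 := Finset.prod_coe_sort S fun w ↦
          if lam w = 0 then (-1 : ℂ) ^ (-lv w (ϖ : L)).natAbs else 1
        refine e3.trans ?_
        rw [← Finset.prod_filter, Finset.prod_pow_eq_pow_sum]
      rw [h1]
      have h2 := hodd (S.filter fun w ↦ lam w = 0) fun w ↦ Finset.mem_filter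
      have h3 : Odd (∑ w ∈ S.filter (fun w ↦ lam w = 0), (-lv w (ϖ : L)).natAbs) := by
        rw [← Int.odd_coe_nat] at *
        push_cast
        have key : ∀ s : Finset (Pl L), Even ((∑ w ∈ s, |(-lv w (ϖ : L))|) -
            ∑ w ∈ s, lv w (ϖ : L)) := by
          intro s
          rw [← Finset.sum_sub_distrib]
          refine Finset.even_sum _ fun w _ ↦ ?_
          rw [abs_neg]
          rcases abs_cases (lv w (ϖ : L)) with ⟨h, -⟩ | ⟨h, -⟩
          · rw [h, sub_self]; exact Even.zero
          · rw [h]; exact ⟨-lv w (ϖ : L), by ring⟩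
        have h4 := (key (S.filter fun w ↦ lam w = 0)).add_odd h2
        rwa [sub_add_cancel] at h4
      rw [h3.neg_one_pow]
      norm_num

end Fermat.Agent.LT.CTree
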