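import Fermat.Agent.LT.CTree.KillFam
import Fermat.Agent.LTG.CTree.KillExist
import Fermat.Agent.LTG.G.FamilyMain

/-!
# LT, piece C: the killed family satisfies the hypotheses of the family theorem
-/

set_option autoImplicit false

open NumberField IsDedekindDomain Matrix MeasureTheory
open Fermat.LT Fermat.LT.GeoDat2 Fermat.Agent.LT.D Fermat.Agent.LT.CArch

namespace Fermat.Agent.LT.CTree

attribute [local instance] KillData.fJf KillData.fJa

variable {K L : Type} [Field K] [NumberField K] [Field L] [NumberField L] [Algebra K L]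
  {C : Cub K L} {G : GeoDat2 C}

theorem H_std_pl_G {w : Pl L} (h : G.DL.H w = stdH w) :
    G.DL.H (LT.pl C w) = stdH (LT.pl C w) := by
  ext g
  have e : C.S (C.S (C.S g)) = g := C.S_cube g
  have h1 := G.DL.H_pl w (C.S (C.S g))
  have h2 := stdH_pl C w (C.S (C.S g))
  rw [e] at h1 h2
  rw [h1, h2, h]

theorem H_std_up_G {w : Pl L} (h : G.DL.H w = stdH w) :
    G.DL.H (G.up (G.down w)) = stdH (G.up (G.down w)) := by
  have hc := TwDatum.pl_cube (C := C) (G.up (G.down w))
  rcases G.up_down w with h1 | h1 | h1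
  · rw [← h1]; exact h
  · rw [h1] at h
    have h2 := H_std_pl_G (H_std_pl_G h)
    rwa [hc] at h2
  · rw [h1] at h
    have h2 := H_std_pl_G h
    rwa [hc] at h2

variable (k : KillData G.DL.toDatum)

/-- the members of the killed family are units at the places above a place of deeper level -/
theorem A_unit_of_ne_G {g : G.DL.I → ℝ → ℂ} (hg : ∀ i, IsTest (g i)) (d : k.J →₀ ℕ) {w : Pl L}
    (hw : G.DL.H (G.up (G.down w)) ≠ stdH (G.up (G.down w))) :
    (k.A g hg d).f w = unitF (G.DL.H w) := by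
  refine k.A_f_eq_unit g hg d ?_
  rintro j rfl
  exact hw (H_std_up_G (G.DL.toLevel.H_eq (k.good j)))

/-- a place above a place of `K` whose chosen place is fixed is the chosen place -/
theorem eq_up_of_fix_G {w : Pl L} (hf : LT.pl C (G.up (G.down w)) = G.up (G.down w)) :
    w = G.up (G.down w) := by
  rcases G.up_down w with h1 | h1 | h1
  · exact h1
  · exact h1.trans hf
  · rw [hf] at h1
    exact h1.trans hf

theorem A_unit_G (E : LocProj G) {g : G.DL.I → ℝ → ℂ} (hg : ∀ i, IsTest (g i)) (d : k.J →₀ ℕ) :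
    E.Unit (k.A g hg d) := by
  intro w hw
  rcases E.mem_lAll.mp hw with h | ⟨hr, hn⟩
  · exact A_unit_of_ne_G k hg d (E.ne _ h)
  · refine k.A_f_eq_unit g hg d ?_
    rintro j rfl
    rw [← eq_up_of_fix_G hr.fix] at hn
    exact hn (k.good j)

theorem sCom_A_G {g : G.DL.I → ℝ → ℂ} (hg : ∀ i, IsTest (g i)) (d d' : k.J →₀ ℕ) :
    SCom (k.A g hg d) (k.A g hg d') := by
  refine SCom.of_cases fun v hv ↦ ?_
  by_cases h : G.DL.H (G.up v) = stdH (G.up v)
  · exact Or.inl h
  · refine Or.inr (Or.inl fun j ↦ A_unit_of_ne_G k hg d ?_)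
    rw [G.down_wj]
    exact h

/-- **The killed family satisfies the hypotheses of the family theorem.** -/
theorem famHyp_ps_G (h : KillOK_G k) (E : LocProj G) {g : G.DL.I → ℝ → ℂ} (hg : ∀ i, IsTest (g i)) :
    FamHyp E (k.ps g hg) where
  ir d := unitIR_A_G k h hg d.1
  unit d := A_unit_G k E hg d.1
  com d d' := sCom_A_G k hg d.1 d'.1
  rad := rad_ps k hg

end Fermat.Agent.LT.CTree
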